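import Fermat.Agent.S17.H500.Package
import Fermat.Agent.S17.H17.HContract
import Fermat.Agent.S17.H980.Mov2
import Fermat.Agent.S17.H680.Rational

/-!
# S17 / tower H, leaf T-DATA (helper736): the concrete data of the pairing package of `J₀(N)`

For `F = ℚ̄(X₀(N))`, `∞ = JZero.cusp N` and a `TopInput N`

* `E₁` : the embedding used for POINTS and DISTANCES, `E₂` : the embedding used for FORMS
  (both at `∞`; the basis of `E₂` is Galois-fixed and contains the constant function `1`);
* `Rt ≥ 0` : a Galois-invariant effective divisor avoiding `∞` (the finite ramification divisor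
  of the rational coordinate `t`);
* `d` and the numerical conditions `1 ≤ g`, `2g ≤ d`, `4d + 2g ≤ m = E₂.m`;

this file fixes the DATA of `H500.PairingPackage (MW N)`:

| package | here | definition |
|---|---|---|
| `Dv`   | `Dv N = ↥(effInv N)` | effective Galois-invariant divisors (an `AddSubmonoid`) |
| `deg`  | `degHom N`  | `(Divisor.degree D).toNat` |
| `cls`  | `clsHom N`  | `[D - deg D • ∞] ∈ J₀(N)(ℚ)` |
| `Disj` | `Disj N`    | `∀ P, D P = 0 ∨ E P = 0` |
| `Good` | `T.Good`    | reduced, disjoint from `∞` and from `Rt` |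
| `N`    | `T.NN`      | `HContract.naive E₂` |
| `pr`   | `T.pr`      | `HContract.pair E₁` |
| `δ`    | `T.del`     | `(1/2) Σ_{P ≠ Q} D(P) D(Q) hD E₁ P Q` |
| `K`    | `T.KK`      | `Σ_P D(P) kap E₁ P` |
| `Pl`   | `T.Pl`      | `ht (plucker (E₂.pt ∘ enum D))`, `enum D = D.support.equivFin.symm` |
| `Lin`  | `T.Lin`     | nonzero vectors `a : Fin (E₂.r + 1) → ℚ` |
| `ht`   | `T.htL`     | `HContract.ht (castQ a)` |
| `Z`    | `T.ZL`      | `E₂.Z (castQ a)` |
| `inf`  | `infD N`    | `prim ∞` |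
| `one`  | `T.oneL`    | `Pi.single i₀ 1` (`E₂.x i₀ = 1`) |
| `Rt`   | `T.RtD`     | `Rt` |

All STRUCTURE fields of the package are proved here; the nine AXIOMS are stated as `Prop`s
(`T.NorthcottStatement`, `T.Mov1Statement`, `T.Mov2Statement`, `T.E3Statement`,
`T.BezStatement`, `T.AdjStatement`, `T.GaussStatement`, `T.VdmStatement`, `T.MinkStatement`)
and `T.mkPackage` assembles the package from them.
-/

set_option autoImplicit false
set_option linter.unusedSectionVars false

noncomputable section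

open AlgebraicCurve ModularCurve

namespace Fermat.Agent.S17.H736

open Fermat.Agent.Lib.RR Fermat.Agent.S17.HWall Fermat.Agent.S17.HContract
open Fermat.Agent.S17.H77 Fermat.Agent.S17.H680 Fermat.Agent.S17.H980

variable (N : ℕ) [NeZero N]

/-! ## Divisors -/

/-- The effective Galois-invariant divisors of `X₀(N)`. -/
def effInv : AddSubmonoid (Divisor Qb (modularFunctionFieldBar N)) where
  carrier := {D | 0 ≤ D ∧ IsInvariant (modularFunctionFieldFull N) D}
  zero_mem' := ⟨le_rfl, fun σ => smul_zero _⟩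
  add_mem' := by
    rintro D E ⟨hD, hD'⟩ ⟨hE, hE'⟩
    exact ⟨add_nonneg hD hE, fun σ => by rw [smul_add, hD' σ, hE' σ]⟩

/-- The type of effective Galois-invariant divisors. -/
abbrev Dv : Type := ↥(effInv N)

variable {N}

theorem Dv.nonneg (D : Dv N) : (0 : Divisor Qb (modularFunctionFieldBar N)) ≤ D.1 := D.2.1

theorem Dv.isInvariant (D : Dv N) : IsInvariant (modularFunctionFieldFull N) D.1 := D.2.2

theorem Dv.apply_nonneg (D : Dv N) (P : Place Qb (modularFunctionFieldBar N)) : 0 ≤ D.1 P := by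
  have h := Finsupp.le_def.mp D.nonneg P
  simpa using h

theorem Dv.degree_nonneg (D : Dv N) : 0 ≤ Divisor.degree D.1 :=
  Fermat.Agent.Lib.RR.degree_nonneg D.nonneg

@[simp] theorem Dv.coe_add (D E : Dv N) : (D + E).1 = D.1 + E.1 := rfl

@[simp] theorem Dv.coe_zero : (0 : Dv N).1 = 0 := rfl

theorem Dv.coe_nsmul (k : ℕ) (D : Dv N) : (k • D).1 = k • D.1 :=
  AddSubmonoidClass.coe_nsmul D k

variable (N)

/-- The degree of an effective divisor, as a natural number. -/
def degHom : Dv N →+ ℕ where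
  toFun D := (Divisor.degree D.1).toNat
  map_zero' := by simp
  map_add' D E := by
    rw [Dv.coe_add, map_add, Int.toNat_add D.degree_nonneg E.degree_nonneg]

variable {N}

theorem degHom_apply (D : Dv N) : degHom N D = (Divisor.degree D.1).toNat := rfl

theorem coe_degHom (D : Dv N) : ((degHom N D : ℕ) : ℤ) = Divisor.degree D.1 := by
  rw [degHom_apply, Int.toNat_of_nonneg D.degree_nonneg]

variable (N)

/-- `D ↦ D - deg D • ∞`, as a homomorphism to the divisors of degree zero. -/
def shiftHom : Divisor Qb (modularFunctionFieldBar N) →+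
    Divisor.degZero (K := Qb) (F := modularFunctionFieldBar N) where
  toFun D := ⟨D - Divisor.degree D • prim (JZero.cusp N), by
    rw [Divisor.mem_degZero, map_sub, map_zsmul, degree_prim _ (deg_eq_one _)]
    simp⟩
  map_zero' := by
    apply Subtype.ext
    simp
  map_add' D E := by
    apply Subtype.ext
    simp only [map_add, AddSubgroup.coe_add, add_smul]
    abel

variable {N}

theorem coe_shiftHom (D : Divisor Qb (modularFunctionFieldBar N)) :
    (shiftHom N D : Divisor Qb (modularFunctionFieldBar N))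
      = D - Divisor.degree D • prim (JZero.cusp N) := rfl

/-- The class `[D - deg D • ∞]` of an invariant divisor is a rational point. -/
theorem mk_shiftHom_mem {D : Divisor Qb (modularFunctionFieldBar N)}
    (hD : IsInvariant (modularFunctionFieldFull N) D) :
    Pic0.mk (shiftHom N D) ∈
      FixedPoints.addSubgroup (AlgebraicClosure ℚ ≃ₐ[ℚ] AlgebraicClosure ℚ) (JZero N) := by
  rw [JZero.mem_fixedPoints_iff]
  intro σ
  rw [SemilinearAut.pic0_smul_mk]
  congr 1
  apply Subtype.ext
  rw [SemilinearAut.coe_degZeroSMulHom, coe_shiftHom, smul_sub, hD σ, smul_comm, smul_prim,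
    JZero.galois_smul_cusp]

variable (N)

/-- The class `[D - deg D • ∞] ∈ J₀(N)(ℚ)` of an effective Galois-invariant divisor. -/
def clsHom : Dv N →+
    ↥(FixedPoints.addSubgroup (AlgebraicClosure ℚ ≃ₐ[ℚ] AlgebraicClosure ℚ) (JZero N)) where
  toFun D := ⟨Pic0.mk (shiftHom N D.1), mk_shiftHom_mem D.isInvariant⟩
  map_zero' := by
    apply Subtype.ext
    show Pic0.mk (shiftHom N (0 : Dv N).1) = 0
    rw [Dv.coe_zero, map_zero]
    rfl
  map_add' D E := by
    apply Subtype.ext
    show Pic0.mk (shiftHom N (D + E).1) = Pic0.mk (shiftHom N D.1) + Pic0.mk (shiftHom N E.1)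
    rw [Dv.coe_add, map_add]
    rfl

variable {N}

theorem coe_clsHom (D : Dv N) : ((clsHom N D : _) : JZero N) = Pic0.mk (shiftHom N D.1) := rfl

/-- `cls D = cls E` iff `D - deg D • ∞` and `E - deg E • ∞` are linearly equivalent. -/
theorem clsHom_eq_iff (D E : Dv N) :
    clsHom N D = clsHom N E ↔
      ∃ (h : modularFunctionFieldBar N) (hh : h ≠ 0),
        E.1 - Divisor.degree E.1 • prim (JZero.cusp N)
          = D.1 - Divisor.degree D.1 • prim (JZero.cusp N) + divOf h hh := by
  rw [Subtype.ext_iff, coe_clsHom, coe_clsHom, mk_eq_mk_iff']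
  rfl

/-- Disjoint supports. -/
def Disj (D E : Dv N) : Prop := ∀ P, D.1 P = 0 ∨ E.1 P = 0

theorem disj_iff_disjoint (D E : Dv N) : Disj D E ↔ Disjoint D.1.support E.1.support := by
  rw [Finset.disjoint_left]
  constructor
  · intro h P hP hQ
    rcases h P with h | h
    · exact (Finsupp.mem_support_iff.mp hP) h
    · exact (Finsupp.mem_support_iff.mp hQ) h
  · intro h P
    by_cases hP : D.1 P = 0
    · exact Or.inl hP
    · right
      by_contra hQ
      exact h (Finsupp.mem_support_iff.mpr hP) (Finsupp.mem_support_iff.mpr hQ)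

theorem disj_symm (D E : Dv N) (h : Disj D E) : Disj E D := fun P => (h P).symm

theorem disj_zero (E : Dv N) : Disj 0 E := fun _ => Or.inl rfl

theorem disj_add_left (D₁ D₂ E : Dv N) : Disj (D₁ + D₂) E ↔ Disj D₁ E ∧ Disj D₂ E := by
  constructor
  · intro h
    refine ⟨fun P => ?_, fun P => ?_⟩
    · rcases h P with h | h
      · left
        rw [Dv.coe_add, Finsupp.add_apply] at h
        have h1 := D₁.apply_nonneg P
        have h2 := D₂.apply_nonneg P
        omega
      · exact Or.inr h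
    · rcases h P with h | h
      · left
        rw [Dv.coe_add, Finsupp.add_apply] at h
        have h1 := D₁.apply_nonneg P
        have h2 := D₂.apply_nonneg P
        omega
      · exact Or.inr h
  · rintro ⟨h1, h2⟩ P
    rcases h1 P with h | h
    · rcases h2 P with h' | h'
      · left
        rw [Dv.coe_add, Finsupp.add_apply, h, h', add_zero]
      · exact Or.inr h'
    · exact Or.inr h

variable (N)

/-- The point at infinity, as an effective invariant divisor. -/
def infD : Dv N :=
  ⟨prim (JZero.cusp N), prim_nonneg _, fun σ => by rw [smul_prim, JZero.galois_smul_cusp]⟩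

variable {N}

@[simp] theorem coe_infD : (infD N).1 = prim (JZero.cusp N) := rfl

theorem deg_infD : degHom N (infD N) = 1 := by
  rw [degHom_apply, coe_infD, degree_prim _ (deg_eq_one _)]
  rfl

theorem cls_infD : clsHom N (infD N) = 0 := by
  apply Subtype.ext
  rw [coe_clsHom]
  have h : shiftHom N (infD N).1 = 0 := by
    apply Subtype.ext
    rw [coe_shiftHom, coe_infD, degree_prim _ (deg_eq_one _), one_smul, sub_self]
    rfl
  rw [h]
  rfl

/-! ## The input of TOP -/

variable (N)

/-- The input of the TOP layer: two embedding data at the cusp `∞` (points/distances and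
forms), a rational structure on the forms, the ramification divisor and the numerics. -/
structure TopInput where
  /-- the embedding used for points and distances -/
  E₁ : EmbData Qb (modularFunctionFieldBar N)
  /-- the embedding used for forms / hyperplane sections -/
  E₂ : EmbData Qb (modularFunctionFieldBar N)
  vinf₁ : E₁.vinf = JZero.cusp N
  vinf₂ : E₂.vinf = JZero.cusp N
  /-- the basis of `E₂` is Galois-fixed -/
  x_fixed : ∀ i, IsFixed (modularFunctionFieldFull N) (E₂.x i)
  /-- the index of the constant function -/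
  i₀ : Fin (E₂.r + 1)
  x_one : E₂.x i₀ = 1
  /-- the finite ramification divisor of the coordinate `t` -/
  Rt : Divisor Qb (modularFunctionFieldBar N)
  Rt_nonneg : 0 ≤ Rt
  Rt_inv : IsInvariant (modularFunctionFieldFull N) Rt
  Rt_inf : Rt (JZero.cusp N) = 0
  /-- the degree of the representatives -/
  d : ℕ
  one_le_g : 1 ≤ genusR Qb (modularFunctionFieldBar N)
  two_g_le_d : 2 * genusR Qb (modularFunctionFieldBar N) ≤ d
  four_d_le_m : 4 * d + 2 * genusR Qb (modularFunctionFieldBar N) ≤ E₂.m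

variable {N}

namespace TopInput

variable (T : TopInput N)

theorem isInvariant_vinf₂ : IsInvariant (modularFunctionFieldFull N) (prim T.E₂.vinf) := by
  intro σ
  rw [T.vinf₂, smul_prim, JZero.galois_smul_cusp]

/-- the genus -/
def g (_T : TopInput N) : ℕ := genusR Qb (modularFunctionFieldBar N)

/-- the degree of the forms -/
def m : ℕ := T.E₂.m

/-- The ramification divisor, as an effective invariant divisor. -/
def RtD : Dv N := ⟨T.Rt, T.Rt_nonneg, T.Rt_inv⟩

@[simp] theorem coe_RtD : T.RtD.1 = T.Rt := rfl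

/-- Generic divisors: reduced, avoiding `∞` and `Rt`. -/
def Good (D : Dv N) : Prop := (∀ P, D.1 P ≤ 1) ∧ Disj D (infD N) ∧ Disj D T.RtD

theorem good_disj_inf (D : Dv N) (h : T.Good D) : Disj D (infD N) := h.2.1

theorem good_disj_Rt (D : Dv N) (h : T.Good D) : Disj D T.RtD := h.2.2

/-! ### Heights of divisors -/

/-- The naive height `N(D) = Σ_P D(P) h(E₂.pt P)`. -/
def NN (D : Dv N) : ℝ := naive T.E₂ D.1

/-- The diagonal pairing `(D . E) = Σ_{A,P} D(A) E(P) hD E₁ A P`. -/
def pr (D E : Dv N) : ℝ := pair T.E₁ D.1 E.1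

open Classical in
/-- The off-diagonal self pairing `δ(D) = (1/2) Σ_{P ≠ Q} D(P) D(Q) hD E₁ P Q`
(`= Σ_{P < Q} hD E₁ P Q` for reduced `D`). -/
def del (D : Dv N) : ℝ :=
  (1 / 2 : ℝ) * ∑ P ∈ D.1.support, ∑ Q ∈ D.1.support.erase P,
    (D.1 P : ℝ) * (D.1 Q : ℝ) * hD T.E₁ P Q

/-- The tangent term `K(D) = Σ_P D(P) κ(P)`. -/
def KK (D : Dv N) : ℝ := D.1.sum fun P n => (n : ℝ) * kap T.E₁ P

/-- The standard enumeration of the support of a divisor. -/
def enum (D : Dv N) : Fin D.1.support.card → Place Qb (modularFunctionFieldBar N) :=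
  fun i => (D.1.support.equivFin.symm i : Place Qb (modularFunctionFieldBar N))

theorem enum_injective (D : Dv N) : Function.Injective (enum D) := by
  intro i j h
  exact D.1.support.equivFin.symm.injective (Subtype.ext h)

theorem enum_mem (D : Dv N) (i : Fin D.1.support.card) : enum D i ∈ D.1.support :=
  (D.1.support.equivFin.symm i).2

theorem exists_enum_eq (D : Dv N) {P : Place Qb (modularFunctionFieldBar N)}
    (hP : P ∈ D.1.support) : ∃ i, enum D i = P :=
  ⟨D.1.support.equivFin ⟨P, hP⟩, by unfold enum; rw [Equiv.symm_apply_apply]⟩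

/-- The Plücker height `h(E₂.pt P₁ ∧ … ∧ E₂.pt P_k)` of the points of the support of `D`. -/
def Pl (D : Dv N) : ℝ := ht (plucker fun i => T.E₂.pt (enum D i))

/-! ### Linear forms -/

/-- The nonzero rational linear forms. -/
def Lin : Type := {a : Fin (T.E₂.r + 1) → ℚ // a ≠ 0}

/-- The height of a rational linear form. -/
def htL (a : T.Lin) : ℝ := ht (castQ a.1)

/-- The hyperplane section of a rational linear form. -/
def ZL (a : T.Lin) : Dv N :=
  ⟨T.E₂.Z (castQ a.1), T.E₂.Z_nonneg _,
    isInvariant_Z (modularFunctionFieldFull N) T.E₂ T.x_fixed T.isInvariant_vinf₂ a.1⟩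

@[simp] theorem coe_ZL (a : T.Lin) : (T.ZL a).1 = T.E₂.Z (castQ a.1) := rfl

theorem castQ_ne_zero' (a : T.Lin) : castQ a.1 ≠ 0 := castQ_ne_zero a.2

/-- The constant function `1`, as a linear form. -/
def oneL : T.Lin := ⟨Pi.single T.i₀ 1, by
  intro h
  have := congrFun h T.i₀
  simp at this⟩

@[simp] theorem coe_oneL : T.oneL.1 = Pi.single T.i₀ 1 := rfl

theorem lin_castQ_oneL : lin T.E₂.x (castQ T.oneL.1) = 1 := by
  unfold lin
  rw [Finset.sum_eq_single T.i₀]
  · simp [castQ, T.x_one]
  · intro j _ hj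
    simp [castQ, Pi.single_eq_of_ne hj]
  · intro h
    exact absurd (Finset.mem_univ _) h

/-! ### Structure fields -/

theorem deg_ZL (a : T.Lin) : degHom N (T.ZL a) = T.m := by
  rw [degHom_apply, coe_ZL, T.E₂.degree_Z (T.castQ_ne_zero' a)]
  rfl

theorem cls_ZL (a : T.Lin) : clsHom N (T.ZL a) = 0 := by
  apply Subtype.ext
  rw [coe_clsHom]
  show Pic0.mk (shiftHom N (T.ZL a).1) = Pic0.mk 0
  rw [mk_eq_mk_iff, isPrincipal_iff]
  refine ⟨(lin T.E₂.x (castQ a.1))⁻¹, inv_ne_zero (T.E₂.lin_ne_zero (T.castQ_ne_zero' a)), ?_⟩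
  rw [divOf_inv _ (T.E₂.lin_ne_zero (T.castQ_ne_zero' a)), coe_shiftHom, coe_ZL,
    T.E₂.degree_Z (T.castQ_ne_zero' a), T.E₂.Z_eq (T.castQ_ne_zero' a), T.vinf₂]
  simp only [AddSubgroup.coe_zero, zero_sub, natCast_zsmul]
  abel

theorem ZL_oneL : T.ZL T.oneL = T.m • infD N := by
  apply Subtype.ext
  rw [Dv.coe_nsmul, coe_ZL, T.E₂.Z_eq (T.castQ_ne_zero' T.oneL), coe_infD, T.vinf₂]
  have h : divOf (lin T.E₂.x (castQ T.oneL.1)) (T.E₂.lin_ne_zero (T.castQ_ne_zero' T.oneL))
      = (0 : Divisor Qb (modularFunctionFieldBar N)) := by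
    ext P
    rw [divOf_apply, T.lin_castQ_oneL]
    simp
  rw [h, zero_add]
  rfl

theorem htL_eq_logHeight (a : T.Lin) : T.htL a = Height.logHeight a.1 := by
  have h := H380.absLogHeight_eq (algebraMap ℚ Qb) a.1
  rw [Module.finrank_self, Nat.cast_one, inv_one, one_mul] at h
  rw [← h]
  unfold htL castQ
  have e : (fun j => ((a.1 j : ℚ) : Qb)) = fun j => algebraMap ℚ Qb (a.1 j) := by
    funext j
    rw [eq_ratCast]
  rw [e]

theorem htL_oneL : T.htL T.oneL = 0 := by
  rw [htL_eq_logHeight, coe_oneL, Height.logHeight_eq_logHeight_restrict_support]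
  have : Subsingleton (Function.support (Pi.single T.i₀ (1 : ℚ))) := by
    refine ⟨fun ⟨i, hi⟩ ⟨j, hj⟩ => Subtype.ext ?_⟩
    have hi' : i = T.i₀ := by
      by_contra h
      exact hi (Pi.single_eq_of_ne h _)
    have hj' : j = T.i₀ := by
      by_contra h
      exact hj (Pi.single_eq_of_ne h _)
    exact hi'.trans hj'.symm
  exact Height.logHeight_eq_zero_of_subsingleton _

theorem NN_add (D E : Dv N) : T.NN (D + E) = T.NN D + T.NN E := by
  unfold NN naive
  rw [Dv.coe_add]
  exact Finsupp.sum_add_index' (fun _ => by simp) (fun _ _ _ => by push_cast; ring)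

theorem NN_nonneg (D : Dv N) : 0 ≤ T.NN D := by
  unfold NN naive
  refine Finset.sum_nonneg fun P _ => ?_
  have h : (0 : ℝ) ≤ ((D.1 P : ℤ) : ℝ) := by exact_mod_cast D.apply_nonneg P
  exact mul_nonneg h (H380.absLogHeight_nonneg _)

theorem wedge_swap {n : ℕ} (y z : Fin n → Qb) : wedge y z = (-1 : Qb) • wedge z y := by
  funext p
  simp only [wedge, Pi.smul_apply, smul_eq_mul]
  ring

theorem hD_symm (E : EmbData Qb (modularFunctionFieldBar N))
    (A P : Place Qb (modularFunctionFieldBar N)) : hD E A P = hD E P A := by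
  unfold hD
  have h : ht (wedge (E.pt A) (E.pt P)) = ht (wedge (E.pt P) (E.pt A)) := by
    rw [wedge_swap]
    exact H380.absLogHeight_smul _ (fun _ => H77.isIntegral_Qb _) (by norm_num)
      (H77.isIntegral_Qb _)
  rw [h]
  ring

theorem pr_symm (D E : Dv N) : T.pr D E = T.pr E D := by
  unfold pr pair pairPt
  simp only [Finsupp.sum, Finset.mul_sum]
  rw [Finset.sum_comm]
  refine Finset.sum_congr rfl fun A _ => Finset.sum_congr rfl fun P _ => ?_
  rw [hD_symm T.E₁ A P]
  ring

theorem pr_add_left (D₁ D₂ E : Dv N) : T.pr (D₁ + D₂) E = T.pr D₁ E + T.pr D₂ E := by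
  unfold pr pair
  rw [Dv.coe_add]
  have h : ∀ P, pairPt T.E₁ (D₁.1 + D₂.1) P = pairPt T.E₁ D₁.1 P + pairPt T.E₁ D₂.1 P := by
    intro P
    unfold pairPt
    exact Finsupp.sum_add_index' (fun _ => by simp) (fun _ _ _ => by push_cast; ring)
  simp only [Finsupp.sum, h, mul_add, Finset.sum_add_distrib]

/-! ## The axioms of the package, as statements about the concrete data -/

/-- (NC) Northcott for the naive height. -/
def NorthcottStatement : Prop :=
  ∀ (e : ℕ) (B : ℝ), {D : Dv N | degHom N D ≤ e ∧ T.NN D ≤ B}.Finite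

/-- (Mov1) generic representatives of degree `d`. -/
def Mov1Statement : Prop :=
  ∀ (x : ↥(FixedPoints.addSubgroup (AlgebraicClosure ℚ ≃ₐ[ℚ] AlgebraicClosure ℚ) (JZero N)))
    (S : Dv N), ∃ D, degHom N D = T.d ∧ clsHom N D = x ∧ Disj D S ∧ T.Good D

/-- (Mov2) common generic residual divisor. -/
def Mov2Statement : Prop :=
  ∀ D₁ D₂ : Dv N, degHom N D₁ = degHom N D₂ → degHom N D₁ + 2 * T.g ≤ T.m →
    clsHom N D₁ = clsHom N D₂ → ∀ S : Dv N,
    ∃ (R : Dv N) (a₁ a₂ : T.Lin), T.ZL a₁ = D₁ + R ∧ T.ZL a₂ = D₂ + R ∧ Disj R S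

/-- (E3) -/
def E3Statement : Prop :=
  ∃ C : ℝ, ∀ (a : T.Lin) (E : Dv N), Disj (T.ZL a) E →
    |T.pr (T.ZL a) E - (degHom N E * T.htL a + T.NN E)| ≤ C * degHom N E

/-- (BEZ) -/
def BezStatement : Prop :=
  ∃ C : ℝ, ∀ a : T.Lin, |T.NN (T.ZL a) - T.m * T.htL a| ≤ C

/-- (ADJ) -/
def AdjStatement : Prop :=
  ∃ C : ℝ, ∀ (a : T.Lin) (D D' : Dv N), T.Good D → T.ZL a = D + D' → Disj D D' →
    |2 * T.del D - T.KK D + T.pr D' D - (degHom N D * T.htL a + T.NN D)| ≤ C * degHom N D

/-- (GAUSS) -/
def GaussStatement : Prop :=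
  ∃ C : ℝ, ∀ D : Dv N, T.Good D →
    |T.KK D - (T.pr T.RtD D - (((degHom N T.RtD : ℝ) - (2 * T.g - 2)) / T.m) * T.NN D)|
      ≤ C * degHom N D

/-- (VDM) -/
def VdmStatement : Prop :=
  ∃ C : ℝ, ∀ D : Dv N, T.Good D → degHom N D = T.d → T.Pl D ≤ T.NN D - T.del D + C

/-- (MINK) -/
def MinkStatement : Prop :=
  ∃ C : ℝ, ∀ D : Dv N, T.Good D → degHom N D = T.d →
    ∃ (a : T.Lin) (D' : Dv N), T.ZL a = D + D' ∧
      ((T.m : ℝ) - T.d + 1 - T.g) * T.htL a ≤ T.Pl D + C

/-- **The pairing package of `J₀(N)`** from the nine axioms. -/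
def mkPackage (hnc : T.NorthcottStatement) (hmov1 : T.Mov1Statement)
    (hmov2 : T.Mov2Statement) (he3 : T.E3Statement) (hbez : T.BezStatement)
    (hadj : T.AdjStatement) (hgauss : T.GaussStatement) (hvdm : T.VdmStatement)
    (hmink : T.MinkStatement) :
    Fermat.Agent.S17.H500.PairingPackage
      ↥(FixedPoints.addSubgroup (AlgebraicClosure ℚ ≃ₐ[ℚ] AlgebraicClosure ℚ) (JZero N)) where
  Dv := Dv N
  deg := degHom N
  cls := clsHom N
  Disj := Disj
  Good := T.Good
  N := T.NN
  pr := T.pr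
  δ := T.del
  K := T.KK
  Pl := T.Pl
  Lin := T.Lin
  ht := T.htL
  Z := T.ZL
  m := T.m
  d := T.d
  g := T.g
  inf := infD N
  one := T.oneL
  Rt := T.RtD
  one_le_g := T.one_le_g
  two_g_le_d := T.two_g_le_d
  four_d_le_m := T.four_d_le_m
  disj_symm := disj_symm
  disj_zero := disj_zero
  disj_add_left := disj_add_left
  deg_inf := deg_infD
  cls_inf := cls_infD
  deg_Z := T.deg_ZL
  cls_Z := T.cls_ZL
  Z_one := T.ZL_oneL
  ht_one := T.htL_oneL
  good_disj_inf := T.good_disj_inf
  good_disj_Rt := T.good_disj_Rt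
  N_add := T.NN_add
  N_nonneg := T.NN_nonneg
  pr_symm := T.pr_symm
  pr_add := fun D₁ D₂ E _ => T.pr_add_left D₁ D₂ E
  northcott := hnc
  mov1 := hmov1
  mov2 := hmov2
  e3 := he3
  bez := hbez
  adj := hadj
  gauss := hgauss
  vdm := hvdm
  mink := hmink

end TopInput

end Fermat.Agent.S17.H736
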