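import Fermat.Agent.S17.H736.TopData
import Fermat.Agent.S17.H920.Mov1

/-!
# S17 / tower H, TOP layer (helper736): the package axiom (Mov1) for the concrete data

`TopInput.mov1 : T.Mov1Statement` (unconditional): every rational class `x ∈ J₀(N)(ℚ)` has a
representative `D` (i.e. `x = [D - d • ∞]`) which is effective, Galois-invariant, of degree `d`,
REDUCED, and avoids `∞`, `Rt` and any given divisor.

Inputs (all on main): `H680.JZero.exists_invariant_rep` (Galois descent of the minimal
representative) and `H920.exists_fixed_reduced_member` (G-MOV1, abstract form).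
-/

set_option autoImplicit false
set_option linter.unusedSectionVars false

noncomputable section

open AlgebraicCurve ModularCurve

namespace Fermat.Agent.S17.H736

open Fermat.Agent.Lib.RR Fermat.Agent.S17.HWall Fermat.Agent.S17.HContract
open Fermat.Agent.S17.H77 Fermat.Agent.S17.H680 Fermat.Agent.S17.H980

variable {N : ℕ} [NeZero N]

namespace TopInput

variable (T : TopInput N)

/-- **(Mov1)** for the concrete data. -/
theorem mov1 : T.Mov1Statement := by
  classical
  intro x S
  obtain ⟨m₀, E, hdegE, hm₀, hE0, hEdeg, -, -, hEinv, hmk⟩ := JZero.exists_invariant_rep N x.2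
  have hm₀d : m₀ ≤ T.d := by
    have h1 : m₀ ≤ genusR Qb (modularFunctionFieldBar N) := hm₀
    have h2 : 2 * genusR Qb (modularFunctionFieldBar N) ≤ T.d := T.two_g_le_d
    omega
  -- the invariant divisor `D₀ = E + (d - m₀) ∞` of degree `d` and class `x`
  set D₀ : Divisor Qb (modularFunctionFieldBar N) := E + (T.d - m₀) • prim (JZero.cusp N)
    with hD₀
  have hD₀inv : IsInvariant (modularFunctionFieldFull N) D₀ := by
    intro σ
    rw [hD₀, smul_add, hEinv σ, JZero.isInvariant_nsmul_cusp N (T.d - m₀) σ]
  have hD₀deg : Divisor.degree D₀ = T.d := by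
    rw [hD₀, map_add, hEdeg, map_nsmul, degree_prim _ (deg_eq_one _)]
    simp only [nsmul_eq_mul, mul_one]
    push_cast [Nat.cast_sub hm₀d]
    ring
  have hgen : 2 * (genusFF Qb (modularFunctionFieldBar N) : ℤ) ≤ Divisor.degree D₀ := by
    rw [hD₀deg, genusFF_eq_genusR]
    exact_mod_cast T.two_g_le_d
  obtain ⟨f, hf, -, hffix, hred, hav⟩ :=
    Fermat.Agent.S17.H920.exists_fixed_reduced_member (F₀ := modularFunctionFieldFull N)
      hD₀inv hgen (S.1.support ∪ {JZero.cusp N} ∪ T.Rt.support)
  set D : Divisor Qb (modularFunctionFieldBar N) := D₀ + divOf f hf with hD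
  have hDinv : IsInvariant (modularFunctionFieldFull N) D :=
    Fermat.Agent.S17.H920.isInvariant_add_divOf hD₀inv hf hffix
  have hD0 : 0 ≤ D := by
    rw [Finsupp.le_def]
    intro v
    simpa using (hred v).1
  have hDdeg : Divisor.degree D = T.d := by
    rw [hD, map_add, degree_divOf, add_zero, hD₀deg]
  have hS : ∀ P ∈ S.1.support, D P = 0 := fun P hP =>
    hav P (Finset.mem_union_left _ (Finset.mem_union_left _ hP))
  have hinf : D (JZero.cusp N) = 0 :=
    hav _ (Finset.mem_union_left _ (Finset.mem_union_right _ (Finset.mem_singleton_self _)))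
  have hRt : ∀ P ∈ T.Rt.support, D P = 0 := fun P hP => hav P (Finset.mem_union_right _ hP)
  refine ⟨⟨D, hD0, hDinv⟩, ?_, ?_, ?_, ?_, ?_, ?_⟩
  · -- degree
    rw [degHom_apply]
    show (Divisor.degree D).toNat = T.d
    rw [hDdeg]
    simp
  · -- class
    apply Subtype.ext
    rw [coe_clsHom, ← hmk]
    symm
    rw [mk_eq_mk_iff']
    refine ⟨f, hf, ?_⟩
    rw [coe_shiftHom]
    show D - Divisor.degree D • prim (JZero.cusp N)
      = E - m₀ • prim (JZero.cusp N) + divOf f hf
    rw [hDdeg, hD, hD₀, natCast_zsmul]
    have e : T.d • prim (JZero.cusp N)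
        = (T.d - m₀) • prim (JZero.cusp N) + m₀ • prim (JZero.cusp N) := by
      rw [← add_nsmul, Nat.sub_add_cancel hm₀d]
    rw [e]
    abel
  · -- disjoint from `S`
    intro P
    by_cases hP : P ∈ S.1.support
    · exact Or.inl (hS P hP)
    · exact Or.inr (Finsupp.notMem_support_iff.mp hP)
  · -- reduced
    intro P
    exact (hred P).2
  · -- avoids `∞`
    intro P
    by_cases hP : P = JZero.cusp N
    · left
      rw [hP]
      exact hinf
    · right
      rw [coe_infD]
      exact prim_apply_of_ne hP
  · -- avoids `Rt`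
    intro P
    by_cases hP : P ∈ T.Rt.support
    · exact Or.inl (hRt P hP)
    · exact Or.inr (Finsupp.notMem_support_iff.mp hP)

end TopInput

end Fermat.Agent.S17.H736
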