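import Fermat.Agent.S17.H736.TopData

/-!
# S17 / tower H, TOP layer (helper736): the package axiom (Mov2) for the concrete data

`TopInput.mov2 : T.Mov2Statement`, from `H980.exists_common_residual` (G-MOV2, on main).
Unconditional.
-/

set_option autoImplicit false
set_option linter.unusedSectionVars false

noncomputable section

open AlgebraicCurve ModularCurve

namespace Fermat.Agent.S17.H736

open Fermat.Agent.Lib.RR Fermat.Agent.S17.HWall Fermat.Agent.S17.HContract
open Fermat.Agent.S17.H77 Fermat.Agent.S17.H680 Fermat.Agent.S17.H980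

variable {N : ℕ} [NeZero N]

namespace TopInput

variable (T : TopInput N)

/-- **(Mov2)** for the concrete data: linearly equivalent effective invariant divisors of the
same degree `≤ m - 2g` are cut out by rational hyperplane sections with a common residual
divisor avoiding any given divisor. -/
theorem mov2 : T.Mov2Statement := by
  intro D₁ D₂ hdeg hm hcls S
  have hd : Divisor.degree D₁.1 = Divisor.degree D₂.1 := by
    rw [← coe_degHom, ← coe_degHom, hdeg]
  obtain ⟨h, hh, e⟩ := (clsHom_eq_iff D₁ D₂).mp hcls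
  have hdiv : divOf h⁻¹ (inv_ne_zero hh) = D₁.1 - D₂.1 := by
    rw [divOf_inv _ hh]
    rw [hd] at e
    have e' : divOf h hh = D₂.1 - D₁.1 := by
      have e2 : divOf h hh = (D₂.1 - Divisor.degree D₂.1 • prim (JZero.cusp N))
          - (D₁.1 - Divisor.degree D₂.1 • prim (JZero.cusp N)) := by
        rw [e]
        abel
      rw [e2]
      abel
    rw [e']
    abel
  have hgen : Divisor.degree D₁.1 +
      2 * (genusFF Qb (modularFunctionFieldBar N) : ℤ) ≤ T.E₂.m := by
    rw [genusFF_eq_genusR, ← coe_degHom]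
    have : degHom N D₁ + 2 * genusR Qb (modularFunctionFieldBar N) ≤ T.E₂.m := hm
    exact_mod_cast this
  obtain ⟨a₁, a₂, R, ha₁, ha₂, hR0, hRinv, hZ₁, hZ₂, hRS⟩ :=
    exists_common_residual (modularFunctionFieldFull N) T.E₂ T.x_fixed T.isInvariant_vinf₂
      D₁.1 D₂.1 D₁.nonneg D₂.nonneg D₁.isInvariant D₂.isInvariant hgen h⁻¹ (inv_ne_zero hh)
      hdiv S.1.support
  refine ⟨⟨R, hR0, hRinv⟩, ⟨a₁, ha₁⟩, ⟨a₂, ha₂⟩, Subtype.ext hZ₁, Subtype.ext hZ₂, fun P => ?_⟩
  by_cases hP : P ∈ S.1.support
  · exact Or.inl (hRS P hP)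
  · exact Or.inr (Finsupp.notMem_support_iff.mp hP)

end TopInput

end Fermat.Agent.S17.H736
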